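/-
P-CFT (helper46): LINEAR ALGEBRA for the counting lemma (row SD-COUNT).

* `count_injective` : for an exact sequence `A → B → V → C → D` of vector spaces and a surjection
  `θ : V → W` with `dim ker (A → B) ≤ dim ker (C → D)`, `dim A ≤ dim W` and
  `dim B + 2 dim ker (C → D) ≤ 2 dim A`, the map `θ` is injective.
* `finrank_dual_le_of_factor` : if `π, Θ : X → _` with `ker π ≤ ker Θ` and `Θ` onto `Dual S`, then
  `S` is finite-dimensional of dimension `≤ dim range π`.
-/
import Mathlib

set_option autoImplicit false

open Module

namespace Fermat.Agent.H46.Cft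

section count

variable {k : Type*} [Field k]
variable {A B V C D W : Type*} [AddCommGroup A] [Module k A] [AddCommGroup B] [Module k B]
  [AddCommGroup V] [Module k V] [AddCommGroup C] [Module k C] [AddCommGroup D] [Module k D]
  [AddCommGroup W] [Module k W]

/-- The middle term of an exact sequence `B → V → C` is finite-dimensional if `B` and the image
of `V` in `C` are. -/
theorem finite_of_exact (bd : B →ₗ[k] V) (π : V →ₗ[k] C) (h2 : Function.Exact bd π)
    [Module.Finite k B] (hfin : Module.Finite k (LinearMap.range π)) : Module.Finite k V := by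
  have hker : Module.Finite k (LinearMap.ker π) := by
    rw [LinearMap.exact_iff.mp h2]
    exact Module.Finite.range bd
  have hquot : Module.Finite k (V ⧸ LinearMap.ker π) :=
    Module.Finite.equiv (LinearMap.quotKerEquivRange π).symm
  exact Module.Finite.of_submodule_quotient (LinearMap.ker π)

/-- **The counting lemma, abstract form.** -/
theorem count_injective (f₁ : A →ₗ[k] B) (bd : B →ₗ[k] V) (π : V →ₗ[k] C) (f₂ : C →ₗ[k] D)
    (θ : V →ₗ[k] W) (h1 : Function.Exact f₁ bd) (h2 : Function.Exact bd π)
    (h3 : Function.Exact π f₂) [Module.Finite k A] [Module.Finite k B]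
    (hfin : Module.Finite k (LinearMap.ker f₂)) (hθ : Function.Surjective θ)
    (hs : finrank k (LinearMap.ker f₁) ≤ finrank k (LinearMap.ker f₂))
    (hW : finrank k A ≤ finrank k W)
    (hcount : finrank k B + 2 * finrank k (LinearMap.ker f₂) ≤ 2 * finrank k A) :
    Function.Injective θ := by
  have hrange : LinearMap.range π = LinearMap.ker f₂ := (LinearMap.exact_iff.mp h3).symm
  have hfin' : Module.Finite k (LinearMap.range π) := by rw [hrange]; exact hfin
  have hV : Module.Finite k V := finite_of_exact bd π h2 hfin'
  have hWfin : Module.Finite k W := Module.Finite.of_surjective θ hθ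
  -- the three rank-nullity relations
  have e1 := LinearMap.finrank_range_add_finrank_ker π
  have e2 := LinearMap.finrank_range_add_finrank_ker bd
  have e3 := LinearMap.finrank_range_add_finrank_ker f₁
  rw [hrange] at e1
  rw [LinearMap.exact_iff.mp h2] at e1
  rw [LinearMap.exact_iff.mp h1] at e2
  have hle : finrank k W ≤ finrank k V := LinearMap.finrank_le_finrank_of_surjective hθ
  have heq : finrank k V = finrank k W := by omega
  exact (LinearMap.injective_iff_surjective_of_finrank_eq_finrank heq).mpr hθ

end count

section factor

variable {k : Type*} [Field k]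
variable {X H S : Type*} [AddCommGroup X] [Module k X] [AddCommGroup H] [Module k H]
  [AddCommGroup S] [Module k S]

/-- If `Θ : X → Dual S` is onto and factors through `π : X → H` (`ker π ≤ ker Θ`), and the image
of `π` is finite-dimensional, then `S` is finite-dimensional and `dim S ≤ dim (range π)`. -/
theorem finrank_le_of_factor (π : X →ₗ[k] H) (Θ : X →ₗ[k] Module.Dual k S)
    (hle : LinearMap.ker π ≤ LinearMap.ker Θ) (hΘ : Function.Surjective Θ)
    (hfin : Module.Finite k (LinearMap.range π)) :
    Module.Finite k S ∧ finrank k S ≤ finrank k (LinearMap.range π) := by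
  -- the induced surjection `range π → Dual S`
  let g : (X ⧸ LinearMap.ker π) →ₗ[k] Module.Dual k S := (LinearMap.ker π).liftQ Θ hle
  have hg : Function.Surjective g := by
    intro ψ
    obtain ⟨x, hx⟩ := hΘ ψ
    exact ⟨Submodule.Quotient.mk x, by simpa [g] using hx⟩
  let g' : LinearMap.range π →ₗ[k] Module.Dual k S :=
    g ∘ₗ (LinearMap.quotKerEquivRange π).symm.toLinearMap
  have hg' : Function.Surjective g' := hg.comp (LinearMap.quotKerEquivRange π).symm.surjective
  have hdual : Module.Finite k (Module.Dual k S) := Module.Finite.of_surjective g' hg'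
  have hS : Module.Finite k S := (Module.finite_dual_iff k).mp hdual
  refine ⟨hS, ?_⟩
  have := LinearMap.finrank_le_finrank_of_surjective hg'
  rwa [Subspace.dual_finrank_eq] at this

end factor

end Fermat.Agent.H46.Cft
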