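/-
P-CFT (helper46): PERMUTATION MODULES ARE SELF-DUAL UP TO THE TWIST.

For a subgroup `U` of finite index of `G` and a character `χ : G →* kˣ` trivial on `U`, the map
`e_(gU) ↦ χ(g) · δ_(gU)` is an isomorphism of representations
`k[G/U] ≅ k[G/U]^*(χ)`  (`Fermat.Agent.H46.Cft.permSelfDual`).
-/
import Mathlib
import Fermat.Prelude.Def_GroupCohomology_Selmer

set_option autoImplicit false

noncomputable section

universe u

open CategoryTheory

namespace Fermat.Agent.H46.Cft

variable {k G : Type u} [Field k] [Group G] (χ : G →* kˣ) (U : Subgroup G)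

/-- A character trivial on `U` as a function on the left cosets of `U`. -/
def chiCoset (h : ∀ u ∈ U, χ u = 1) : G ⧸ U → kˣ :=
  fun q => Quotient.liftOn' q (fun g => χ g) (fun a b hab => by
    have h1 : a⁻¹ * b ∈ U := QuotientGroup.leftRel_apply.mp hab
    have h2 : χ b = χ a * χ (a⁻¹ * b) := by
      rw [← map_mul, mul_inv_cancel_left]
    show χ a = χ b
    rw [h2, h _ h1, mul_one])

@[simp] lemma chiCoset_mk (h : ∀ u ∈ U, χ u = 1) (g : G) :
    chiCoset χ U h (QuotientGroup.mk g : G ⧸ U) = χ g := rfl

lemma chiCoset_smul (h : ∀ u ∈ U, χ u = 1) (g : G) (q : G ⧸ U) :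
    chiCoset χ U h (g • q) = χ g * chiCoset χ U h q := by
  induction q using QuotientGroup.induction_on with
  | H x =>
    show chiCoset χ U h (QuotientGroup.mk (g * x) : G ⧸ U) = _
    rw [chiCoset_mk, chiCoset_mk, map_mul]

variable [U.FiniteIndex]

/-- The underlying linear equivalence of `permSelfDual`: `e_q ↦ χ(q) · δ_q`. -/
def permSelfDualLinearEquiv (h : ∀ u ∈ U, χ u = 1) :
    MonoidAlgebra k (G ⧸ U) ≃ₗ[k] Module.Dual k (MonoidAlgebra k (G ⧸ U)) := by
  classical
  haveI : Finite (G ⧸ U) := Subgroup.finite_quotient_of_finiteIndex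
  exact (MonoidAlgebra.basis (G ⧸ U) k).equiv
    ((MonoidAlgebra.basis (G ⧸ U) k).dualBasis.unitsSMul (chiCoset χ U h)) (Equiv.refl _)

lemma permSelfDualLinearEquiv_single (h : ∀ u ∈ U, χ u = 1) (x : G ⧸ U) :
    permSelfDualLinearEquiv χ U h (MonoidAlgebra.single x 1)
      = (chiCoset χ U h x : k) • (MonoidAlgebra.basis (G ⧸ U) k).coord x := by
  classical
  have : Finite (G ⧸ U) := Subgroup.finite_quotient_of_finiteIndex
  unfold permSelfDualLinearEquiv
  rw [← MonoidAlgebra.basis_apply, Module.Basis.equiv_apply]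
  simp [Module.Basis.unitsSMul_apply, Units.smul_def]

open scoped Classical in
lemma permSelfDualLinearEquiv_single_single (h : ∀ u ∈ U, χ u = 1) (x y : G ⧸ U) :
    permSelfDualLinearEquiv χ U h (MonoidAlgebra.single x 1) (MonoidAlgebra.single y 1)
      = if x = y then (chiCoset χ U h x : k) else 0 := by
  rw [permSelfDualLinearEquiv_single, ← MonoidAlgebra.basis_apply (R := G ⧸ U) k y,
    LinearMap.smul_apply, Module.Basis.coord_apply, Module.Basis.repr_self,
    Finsupp.single_apply]
  split_ifs with h1 h2 h2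
  · simp
  · exact absurd h1.symm h2
  · exact absurd h2.symm h1
  · simp

/-- The map `e_(gU) ↦ χ(g) · δ_(gU)` as an equivalence of representations. -/
def permSelfDualEquiv (h : ∀ u ∈ U, χ u = 1) :
    Representation.Equiv (Representation.ofMulAction k G (G ⧸ U))
      ((Representation.ofMulAction k G (G ⧸ U)).dual.twist χ) :=
  .mk (permSelfDualLinearEquiv χ U h) fun g => by
    classical
    ext x y
    show permSelfDualLinearEquiv χ U h
        (Representation.ofMulAction k G (G ⧸ U) g (MonoidAlgebra.single x 1))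
          (MonoidAlgebra.single y 1)
      = (χ g : k) • (permSelfDualLinearEquiv χ U h (MonoidAlgebra.single x 1))
          (Representation.ofMulAction k G (G ⧸ U) g⁻¹ (MonoidAlgebra.single y 1))
    rw [Representation.ofMulAction_single, Representation.ofMulAction_single,
      permSelfDualLinearEquiv_single_single, permSelfDualLinearEquiv_single_single,
      chiCoset_smul, smul_eq_mul]
    by_cases hxy : g • x = y
    · have hxy' : x = g⁻¹ • y := by rw [← hxy, inv_smul_smul]
      rw [if_pos hxy, if_pos hxy', Units.val_mul]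
    · have hxy' : ¬ x = g⁻¹ • y := fun h' => hxy (by rw [h', smul_inv_smul])
      rw [if_neg hxy, if_neg hxy', mul_zero]

/-- **Permutation modules are self-dual up to the twist**: for `χ` trivial on `U` (of finite
index), `k[G/U] ≅ k[G/U]^*(χ)` via `e_(gU) ↦ χ(g) · δ_(gU)`. -/
def permSelfDual (h : ∀ u ∈ U, χ u = 1) :
    Rep.ofMulAction k G (G ⧸ U) ≅ (Rep.ofMulAction k G (G ⧸ U)).dualTwist χ :=
  Rep.mkIso (permSelfDualEquiv χ U h)

open scoped Classical in
lemma permSelfDual_hom_single_single (h : ∀ u ∈ U, χ u = 1) (x y : G ⧸ U) :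
    ((permSelfDual χ U h).hom.hom (MonoidAlgebra.single x 1) :
        Module.Dual k (MonoidAlgebra k (G ⧸ U))) (MonoidAlgebra.single y 1)
      = if x = y then (chiCoset χ U h x : k) else 0 :=
  permSelfDualLinearEquiv_single_single χ U h x y

end Fermat.Agent.H46.Cft

end
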