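/-
P-CFT (helper46), row SD-COUNT: THE COUNTING LEMMA `CountMonoStatement`.

On a permutation module `P = 𝔽_p[G/U]` (`U` `χ`-open): `Θ²` onto and
`dim H¹(loc, P) + 2 dim Ш²(P) ≤ 2 dim H¹(G, P)` imply `Θ²` injective.

* `exists_dualH1_injective K` : an injective linear map `Dual (H¹(K)) → H²(dualCx K)` (field);
* `finrank_frameSha_le_of_iso`, `lvlHEquiv` : invariance under isomorphisms of coefficients;
* `countMono_of_iso` : the counting lemma for any `M ≅ M^*(χ)`;
* `countMono : CountMonoStatement`.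
-/
import Fermat.Agent.H13.Cft.WaistV2
import Fermat.Agent.H34.Cft.ConeLes
import Fermat.Agent.H77.FrCore.KerA
import Fermat.Agent.H19.Cft.HomologyApi
import Fermat.Agent.H53.Cft.FrNatDefs
import Fermat.Agent.H46.Cft.PermSelfDual
import Fermat.Agent.H46.Cft.CountLinAlg

set_option autoImplicit false

universe u

open CategoryTheory Module

namespace Fermat.Agent.H46.Cft

open Fermat.Agent.H13.Cft Fermat.Agent.H77 Fermat.Agent.H53 Fermat.Agent.H34 Fermat.Agent.H19

/-! ### `Dual (H¹(K))` embeds into `H²(dualCx K)` -/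

section dualH

variable {k : Type u} [Field k] (K : CochainComplex (ModuleCat.{u} k) ℕ)

/-- Over a field there is an injective linear map `Dual (H¹(K)) → H²(dualCx K)`
(`ψ ↦ [ψ ∘ cls ∘ r]` for a retraction `r` of `Z¹ ⊆ K¹`). -/
theorem exists_dualH1_injective :
    ∃ Φ : Module.Dual k (K.homology 1) →ₗ[k] (dualCx K).homology 2, Function.Injective Φ := by
  have hApi : HomologyApiStatement.{u} := Fermat.Agent.H19.homologyApi
  obtain ⟨r, hr⟩ := LinearMap.exists_leftInverse_of_injective (frcZ K 1).subtype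
    (Submodule.ker_subtype _)
  have hr' : ∀ y : frcZ K 1, r y.1 = y := fun y => LinearMap.congr_fun hr y
  let Ψ : Module.Dual k (K.homology 1) →ₗ[k] Module.Dual k (K.X 1) :=
    Module.Dual.transpose (frcCls hApi K 1 ∘ₗ r)
  have hΨ : ∀ (ψ : Module.Dual k (K.homology 1)) (y : frcZ K 1),
      Ψ ψ y.1 = ψ (frcCls hApi K 1 y) := by
    intro ψ y
    show ψ (frcCls hApi K 1 (r y.1)) = _
    rw [hr']
  have hcoc : ∀ ψ, (frcCo2 K ∘ₗ Ψ) ψ ∈ frcZ (dualCx K) 2 := by
    intro ψ
    rw [mem_frcZ]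
    apply frcEv3_inj
    intro e
    rw [frcEv3_d]
    show Ψ ψ ((K.d 0 1).hom e) = 0
    have := hΨ ψ ⟨(K.d 0 1).hom e, frc_d_mem K 0 e⟩
    rw [frcCls_d, map_zero] at this
    exact this
  let ΦZ : Module.Dual k (K.homology 1) →ₗ[k] frcZ (dualCx K) 2 :=
    (frcCo2 K ∘ₗ Ψ).codRestrict _ hcoc
  refine ⟨frcCls hApi (dualCx K) 2 ∘ₗ ΦZ, ?_⟩
  rw [← LinearMap.ker_eq_bot, LinearMap.ker_eq_bot']
  intro ψ hψ
  rw [LinearMap.comp_apply, frcCls_eq_zero_iff hApi (dualCx K) 1] at hψ
  obtain ⟨η, hη⟩ := hψ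
  refine LinearMap.ext fun z => ?_
  obtain ⟨y, rfl⟩ := frcCls_surjective hApi K 1 z
  rw [← hΨ ψ y, LinearMap.zero_apply]
  have h1 : frcEv2 K (((dualCx K).d 1 2).hom η) y.1 = Ψ ψ y.1 := by
    rw [hη]
    rfl
  rw [← h1, frcEv2_d, mem_frcZ.mp y.2, map_zero]

end dualH

/-! ### Invariance under isomorphisms of coefficients -/

section iso

variable {k G : Type u} [CommRing k] [Group G]

/-- Level cohomology of isomorphic coefficients. -/
noncomputable def lvlHIso (𝒰 : LevelSys G) {M N : Rep.{u} k G} (e : M ≅ N) (n : ℕ) :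
    lvlH 𝒰 M n ≅ lvlH 𝒰 N n :=
  (lvlFunctor 𝒰 ⋙ HomologicalComplex.homologyFunctor _ _ n).mapIso e

lemma lvlHIso_hom (𝒰 : LevelSys G) {M N : Rep.{u} k G} (e : M ≅ N) (n : ℕ) :
    (lvlHIso 𝒰 e n).hom = HomologicalComplex.homologyMap (lvlMap 𝒰 e.hom) n := rfl

lemma lvlH_map_injective (𝒰 : LevelSys G) {M N : Rep.{u} k G} (e : M ≅ N) (n : ℕ) :
    Function.Injective (HomologicalComplex.homologyMap (lvlMap 𝒰 e.hom) n).hom := by
  rw [← lvlHIso_hom]
  exact ((lvlHIso 𝒰 e n).toLinearEquiv).injective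

/-- `Hⁿ(f)` maps `Шⁿ(M)` into `Шⁿ(N)`. -/
lemma frameSha_map_mem (𝔄 : ArithDatum k G) {M N : Rep.{u} k G} (f : M ⟶ N) (n : ℕ)
    (x : (lvlComplex 𝔄.lvl M).homology n) (hx : x ∈ frameSha 𝔄 M n) :
    (HomologicalComplex.homologyMap (lvlMap 𝔄.lvl f) n).hom x ∈ frameSha 𝔄 N n := by
  unfold frameSha at hx ⊢
  rw [LinearMap.mem_ker] at hx ⊢
  have h1 : HomologicalComplex.homologyMap (lvlMap 𝔄.lvl f) n ≫
      HomologicalComplex.homologyMap (resTot 𝔄 N) n
      = HomologicalComplex.homologyMap (resTot 𝔄 M) n ≫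
        HomologicalComplex.homologyMap (locMap 𝔄 f) n := by
    rw [← HomologicalComplex.homologyMap_comp, ← HomologicalComplex.homologyMap_comp,
      resTot_naturality]
  have h2 := LinearMap.congr_fun (congrArg ModuleCat.Hom.hom h1) x
  rw [ModuleCat.hom_comp, ModuleCat.hom_comp, LinearMap.comp_apply, LinearMap.comp_apply, hx,
    map_zero] at h2
  exact h2

end iso

section isoField

variable {k G : Type u} [Field k] [Group G]

lemma finrank_frameSha_le_of_iso (𝔄 : ArithDatum k G) {M N : Rep.{u} k G} (e : M ≅ N) (n : ℕ)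
    (hfin : Module.Finite k (frameSha 𝔄 N n)) :
    finrank k (frameSha 𝔄 M n) ≤ finrank k (frameSha 𝔄 N n) := by
  let j : frameSha 𝔄 M n →ₗ[k] frameSha 𝔄 N n :=
    (HomologicalComplex.homologyMap (lvlMap 𝔄.lvl e.hom) n).hom.restrict
      (frameSha_map_mem 𝔄 e.hom n)
  have hj : Function.Injective j := by
    intro x y hxy
    apply Subtype.ext
    apply lvlH_map_injective 𝔄.lvl e n
    exact congrArg Subtype.val hxy
  exact LinearMap.finrank_le_finrank_of_injective hj

end isoField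

/-! ### The counting lemma -/

section count

variable {k G : Type u} [Field k] [Group G]

/-- **The counting lemma** for coefficients `M ≅ M^*(χ)`. -/
theorem countMono_of_iso (𝔄 : ArithDatum k G) (T : Trace 𝔄) (M : Rep.{u} k G)
    (h : ThetaComm M T) (e : M ≅ M.dualTwist 𝔄.χ)
    (hepi : Epi (HomologicalComplex.homologyMap (thetaHom M T h) 2))
    (hfin1 : Module.Finite k (lvlH 𝔄.lvl M 1))
    (hfinL : Module.Finite k ((locComplex 𝔄 M).homology 1))
    (hfinS : Module.Finite k (frameSha 𝔄 M 2))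
    (hcount : finrank k ((locComplex 𝔄 M).homology 1) + 2 * finrank k (frameSha 𝔄 M 2)
      ≤ 2 * finrank k (lvlH 𝔄.lvl M 1)) :
    Mono (HomologicalComplex.homologyMap (thetaHom M T h) 2) := by
  have hApi : HomologyApiStatement.{u} := Fermat.Agent.H19.homologyApi
  have hθ : Function.Surjective (HomologicalComplex.homologyMap (thetaHom M T h) 2).hom :=
    (ModuleCat.epi_iff_surjective _).mp hepi
  rw [ModuleCat.mono_iff_injective]
  -- `dim Ш¹(M^*(χ)) ≤ dim Ш²(M)` from the frame core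
  have hcore := finrank_le_of_factor (frcPi hApi 𝔄 M) (frcTheta hApi T M h)
    (frc_ker_pi_le hApi T M h) (frc_theta_surjective hApi T M h hθ)
    (by rw [frc_range_pi]; exact hfinS)
  rw [frc_range_pi] at hcore
  obtain ⟨hfinS1, hS1⟩ := hcore
  have hs : finrank k (frameSha 𝔄 M 1) ≤ finrank k (frameSha 𝔄 M 2) :=
    (finrank_frameSha_le_of_iso 𝔄 e 1 hfinS1).trans hS1
  -- the source of `Θ²` as the homology of the cone
  let θ : (coneShift (resTot 𝔄 M)).homology 2 →ₗ[k]
      (dualCx (lvlComplex 𝔄.lvl (M.dualTwist 𝔄.χ))).homology 2 :=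
    (HomologicalComplex.homologyMap (thetaHom M T h) 2).hom
  have hθ' : Function.Surjective θ := hθ
  have hfinS' : Module.Finite k
      (LinearMap.ker (HomologicalComplex.homologyMap (resTot 𝔄 M) 2).hom) := hfinS
  -- `dim H¹(G, M) ≤ dim H²(dualCx C(M^*(χ)))`
  have hWfin : Module.Finite k
      ((dualCx (lvlComplex 𝔄.lvl (M.dualTwist 𝔄.χ))).homology 2) := by
    have hV : Module.Finite k ((coneShift (resTot 𝔄 M)).homology 2) :=
      finite_of_exact (coneBd (resTot 𝔄 M) 1).hom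
        (HomologicalComplex.homologyMap (conePi (resTot 𝔄 M)) 2).hom
        (cone_exact_bd_pi (resTot 𝔄 M) 1)
        (by
          rw [← LinearMap.exact_iff.mp (cone_exact_pi_phi (resTot 𝔄 M) 2)]
          exact hfinS')
    exact Module.Finite.of_surjective θ hθ'
  have hW : finrank k (lvlH 𝔄.lvl M 1)
      ≤ finrank k ((dualCx (lvlComplex 𝔄.lvl (M.dualTwist 𝔄.χ))).homology 2) := by
    obtain ⟨Φ, hΦ⟩ := exists_dualH1_injective (lvlComplex 𝔄.lvl (M.dualTwist 𝔄.χ))
    have h1 := LinearMap.finrank_le_finrank_of_injective hΦ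
    rw [Subspace.dual_finrank_eq] at h1
    rw [(lvlHIso 𝔄.lvl e 1).toLinearEquiv.finrank_eq]
    exact h1
  have hinj : Function.Injective θ :=
    count_injective (HomologicalComplex.homologyMap (resTot 𝔄 M) 1).hom
      (coneBd (resTot 𝔄 M) 1).hom (HomologicalComplex.homologyMap (conePi (resTot 𝔄 M)) 2).hom
      (HomologicalComplex.homologyMap (resTot 𝔄 M) 2).hom θ
      (cone_exact_phi_bd (resTot 𝔄 M) 1) (cone_exact_bd_pi (resTot 𝔄 M) 1)
      (cone_exact_pi_phi (resTot 𝔄 M) 2) hfinS' hθ' hs hW hcount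
  exact hinj

end count

/-- **[M2] SD-COUNT.** The counting lemma on permutation modules. -/
theorem countMono : CountMonoStatement := by
  intro p _ G _ 𝔄 T hc U hU hepi hfin1 hfinL hfinS hcount
  obtain ⟨⟨N, hN, hNU⟩, hχ⟩ := hU
  have hNfin : N.FiniteIndex := 𝔄.lvl.finiteIndex N hN
  have hUfin : U.FiniteIndex := Subgroup.finiteIndex_of_le hNU
  exact countMono_of_iso 𝔄 T _ (hc _) (permSelfDual 𝔄.χ U hχ) hepi hfin1 hfinL hfinS hcount

end Fermat.Agent.H46.Cft
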