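/-
P-CFT (helper46), row SD-LM: `LTopMonoStatement` and `LMidMonoStatement`.

On a permutation module `P = 𝔽_p[Γ/V]` (`V` `χ`-open, so `P ≅ P^*(χ)`):
* `λ²` onto and `dim H²(Γ, P) ≤ 1` imply `λ²` injective  (`lTopMono`);
* `λ¹` onto and `H¹(Γ, P)` finite imply `λ¹` injective     (`lMidMono`).

Ingredients: injective linear maps `Dual (H¹(K)) → H¹(dualCx2 K)` and
`Dual (H⁰(K)) → H²(dualCx2 K)` over a field, the self-duality `permSelfDual`, and the invariant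
vector `∑ x, e_x` of `P`.
-/
import Fermat.Agent.H46.Cft.CountMono

set_option autoImplicit false

universe u

open CategoryTheory Module

namespace Fermat.Agent.H46.Cft

open Fermat.Agent.H13.Cft Fermat.Agent.H77 Fermat.Agent.H53 Fermat.Agent.H34 Fermat.Agent.H19

/-! ### The dual complex with top degree `2` -/

section dual2

variable {k : Type u} [CommRing k] (K : CochainComplex (ModuleCat.{u} k) ℕ)

/-- Elements of `D⁰` as linear forms on `K²`. -/
noncomputable def d2Ev0 : (dualCx2 K).X 0 →ₗ[k] Module.Dual k (K.X 2) := LinearMap.id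

/-- Elements of `D¹` as linear forms on `K¹`. -/
noncomputable def d2Ev1 : (dualCx2 K).X 1 →ₗ[k] Module.Dual k (K.X 1) := LinearMap.id

/-- Elements of `D²` as linear forms on `K⁰`. -/
noncomputable def d2Ev2 : (dualCx2 K).X 2 →ₗ[k] Module.Dual k (K.X 0) := LinearMap.id

/-- Linear forms on `K¹` as elements of `D¹`. -/
noncomputable def d2Co1 : Module.Dual k (K.X 1) →ₗ[k] (dualCx2 K).X 1 := LinearMap.id

/-- Linear forms on `K⁰` as elements of `D²`. -/
noncomputable def d2Co2 : Module.Dual k (K.X 0) →ₗ[k] (dualCx2 K).X 2 := LinearMap.id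

theorem dualCx2_d01 : (dualCx2 K).d 0 1 = dualD2 K 0 := by
  unfold dualCx2
  exact CochainComplex.of_d (V := ModuleCat.{u} k) (α := ℕ) _ (dualD2 K) 0

theorem dualCx2_d12 : (dualCx2 K).d 1 2 = dualD2 K 1 := by
  unfold dualCx2
  exact CochainComplex.of_d (V := ModuleCat.{u} k) (α := ℕ) _ (dualD2 K) 1

theorem dualCx2_d23 : (dualCx2 K).d 2 3 = 0 := by
  unfold dualCx2
  exact CochainComplex.of_d (V := ModuleCat.{u} k) (α := ℕ) _ (dualD2 K) 2

theorem d2Ev1_d (η : (dualCx2 K).X 0) (y : K.X 1) :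
    d2Ev1 K (((dualCx2 K).d 0 1).hom η) y = d2Ev0 K η ((K.d 1 2).hom y) := by
  rw [dualCx2_d01]
  rfl

theorem d2Ev2_d (ξ : (dualCx2 K).X 1) (e : K.X 0) :
    d2Ev2 K (((dualCx2 K).d 1 2).hom ξ) e = d2Ev1 K ξ ((K.d 0 1).hom e) := by
  rw [dualCx2_d12]
  rfl

theorem d2Ev2_inj (z : (dualCx2 K).X 2) (h : ∀ e, d2Ev2 K z e = 0) : z = 0 := by
  have : d2Ev2 K z = 0 := LinearMap.ext h
  exact this

end dual2

section dualH2

variable {k : Type u} [Field k] (K : CochainComplex (ModuleCat.{u} k) ℕ)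

/-- Over a field there is an injective linear map `Dual (H¹(K)) → H¹(dualCx2 K)`. -/
theorem exists_dual2H1_injective :
    ∃ Φ : Module.Dual k (K.homology 1) →ₗ[k] (dualCx2 K).homology 1, Function.Injective Φ := by
  have hApi : HomologyApiStatement.{u} := Fermat.Agent.H19.homologyApi
  obtain ⟨r, hr⟩ := LinearMap.exists_leftInverse_of_injective (frcZ K 1).subtype
    (Submodule.ker_subtype _)
  have hr' : ∀ y : frcZ K 1, r y.1 = y := fun y => LinearMap.congr_fun hr y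
  let Ψ : Module.Dual k (K.homology 1) →ₗ[k] Module.Dual k (K.X 1) :=
    Module.Dual.transpose (frcCls hApi K 1 ∘ₗ r)
  have hΨ : ∀ (ψ : Module.Dual k (K.homology 1)) (y : frcZ K 1),
      Ψ ψ y.1 = ψ (frcCls hApi K 1 y) := by
    intro ψ y
    show ψ (frcCls hApi K 1 (r y.1)) = _
    rw [hr']
  have hcoc : ∀ ψ, (d2Co1 K ∘ₗ Ψ) ψ ∈ frcZ (dualCx2 K) 1 := by
    intro ψ
    rw [mem_frcZ]
    apply d2Ev2_inj
    intro e
    rw [d2Ev2_d]
    show Ψ ψ ((K.d 0 1).hom e) = 0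
    have := hΨ ψ ⟨(K.d 0 1).hom e, frc_d_mem K 0 e⟩
    rw [frcCls_d, map_zero] at this
    exact this
  let ΦZ : Module.Dual k (K.homology 1) →ₗ[k] frcZ (dualCx2 K) 1 :=
    (d2Co1 K ∘ₗ Ψ).codRestrict _ hcoc
  refine ⟨frcCls hApi (dualCx2 K) 1 ∘ₗ ΦZ, ?_⟩
  rw [← LinearMap.ker_eq_bot, LinearMap.ker_eq_bot']
  intro ψ hψ
  rw [LinearMap.comp_apply, frcCls_eq_zero_iff hApi (dualCx2 K) 0] at hψ
  obtain ⟨η, hη⟩ := hψ
  refine LinearMap.ext fun z => ?_
  obtain ⟨y, rfl⟩ := frcCls_surjective hApi K 1 z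
  rw [← hΨ ψ y, LinearMap.zero_apply]
  have h1 : d2Ev1 K (((dualCx2 K).d 0 1).hom η) y.1 = Ψ ψ y.1 := by
    rw [hη]
    rfl
  rw [← h1, d2Ev1_d, mem_frcZ.mp y.2, map_zero]

/-- Over a field there is an injective linear map `Dual (H⁰(K)) → H²(dualCx2 K)`. -/
theorem exists_dual2H0_injective :
    ∃ Φ : Module.Dual k (K.homology 0) →ₗ[k] (dualCx2 K).homology 2, Function.Injective Φ := by
  have hApi : HomologyApiStatement.{u} := Fermat.Agent.H19.homologyApi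
  obtain ⟨r, hr⟩ := LinearMap.exists_leftInverse_of_injective (frcZ K 0).subtype
    (Submodule.ker_subtype _)
  have hr' : ∀ y : frcZ K 0, r y.1 = y := fun y => LinearMap.congr_fun hr y
  let Ψ : Module.Dual k (K.homology 0) →ₗ[k] Module.Dual k (K.X 0) :=
    Module.Dual.transpose (frcCls hApi K 0 ∘ₗ r)
  have hΨ : ∀ (ψ : Module.Dual k (K.homology 0)) (y : frcZ K 0),
      Ψ ψ y.1 = ψ (frcCls hApi K 0 y) := by
    intro ψ y
    show ψ (frcCls hApi K 0 (r y.1)) = _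
    rw [hr']
  have hcoc : ∀ ψ, (d2Co2 K ∘ₗ Ψ) ψ ∈ frcZ (dualCx2 K) 2 := by
    intro ψ
    rw [mem_frcZ, dualCx2_d23]
    rfl
  let ΦZ : Module.Dual k (K.homology 0) →ₗ[k] frcZ (dualCx2 K) 2 :=
    (d2Co2 K ∘ₗ Ψ).codRestrict _ hcoc
  refine ⟨frcCls hApi (dualCx2 K) 2 ∘ₗ ΦZ, ?_⟩
  rw [← LinearMap.ker_eq_bot, LinearMap.ker_eq_bot']
  intro ψ hψ
  rw [LinearMap.comp_apply, frcCls_eq_zero_iff hApi (dualCx2 K) 1] at hψ
  obtain ⟨η, hη⟩ := hψ
  refine LinearMap.ext fun z => ?_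
  obtain ⟨y, rfl⟩ := frcCls_surjective hApi K 0 z
  rw [← hΨ ψ y, LinearMap.zero_apply]
  have h1 : d2Ev2 K (((dualCx2 K).d 1 2).hom η) y.1 = Ψ ψ y.1 := by
    rw [hη]
    rfl
  rw [← h1, d2Ev2_d, mem_frcZ.mp y.2, map_zero]

end dualH2

/-! ### The invariant vector of a permutation module -/

section inv

variable {k Γ : Type u} [Field k] [Group Γ] (V : Subgroup Γ) [V.FiniteIndex]

/-- The invariant vector `∑ x, e_x` of `k[Γ/V]`. -/
noncomputable def permInv : MonoidAlgebra k (Γ ⧸ V) :=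
  haveI : Finite (Γ ⧸ V) := Subgroup.finite_quotient_of_finiteIndex
  letI : Fintype (Γ ⧸ V) := Fintype.ofFinite _
  ∑ x : Γ ⧸ V, MonoidAlgebra.single x 1

lemma permInv_fixed (g : Γ) :
    (Rep.ofMulAction k Γ (Γ ⧸ V)).ρ g (permInv (k := k) V) = permInv V := by
  have : Finite (Γ ⧸ V) := Subgroup.finite_quotient_of_finiteIndex
  let _ : Fintype (Γ ⧸ V) := Fintype.ofFinite _
  unfold permInv
  show (Representation.ofMulAction k Γ (Γ ⧸ V)) g _ = _
  rw [map_sum]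
  simp only [Representation.ofMulAction_single]
  exact Fintype.sum_equiv (MulAction.toPerm g) _ _ (fun x => rfl)

lemma permInv_ne_zero : permInv (k := k) V ≠ 0 := by
  classical
  have : Finite (Γ ⧸ V) := Subgroup.finite_quotient_of_finiteIndex
  let _ : Fintype (Γ ⧸ V) := Fintype.ofFinite _
  intro h0
  have h1 : (MonoidAlgebra.basis (Γ ⧸ V) k).coord (QuotientGroup.mk 1) (permInv (k := k) V)
      = 1 := by
    unfold permInv
    rw [map_sum]
    simp only [← MonoidAlgebra.basis_apply, Module.Basis.coord_apply, Module.Basis.repr_self,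
      Finsupp.single_apply]
    simp
  rw [h0, map_zero] at h1
  exact zero_ne_one h1

/-- `H⁰(Γ, k[Γ/V])` is nonzero. -/
theorem lvlH0_perm_ne_zero (𝒱 : LevelSys Γ) :
    ∃ z : lvlH 𝒱 (Rep.ofMulAction k Γ (Γ ⧸ V)) 0, z ≠ 0 := by
  obtain ⟨N, hN⟩ := 𝒱.nonempty
  let c : lvlCochains 𝒱 (Rep.ofMulAction k Γ (Γ ⧸ V)) 0 :=
    ⟨fun _ => permInv V, N, hN, fun _ _ _ => rfl, fun _ s _ => permInv_fixed V s⟩
  have hc : lvlD 𝒱 (Rep.ofMulAction k Γ (Γ ⧸ V)) 0 c = 0 := by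
    apply Subtype.ext
    funext h
    rw [lvlD_coe, frc_d0_apply]
    show (Rep.ofMulAction k Γ (Γ ⧸ V)).ρ (h 0) (permInv V) - permInv V = 0
    rw [permInv_fixed, sub_self]
  refine ⟨lvlCocyclesToH₀Equiv 𝒱 _ ⟨c, LinearMap.mem_ker.mpr hc⟩, ?_⟩
  intro h0
  have h1 := (lvlCocyclesToH₀Equiv 𝒱 (Rep.ofMulAction k Γ (Γ ⧸ V))).map_eq_zero_iff.mp h0
  have h2 : c = 0 := congrArg Subtype.val h1
  have h3 : c.1 default = 0 := by rw [h2]; rfl
  exact permInv_ne_zero V h3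

end inv

/-! ### The two statements -/

section main

variable {k Γ : Type u} [Field k] [Group Γ]

/-- `λ¹` onto + `H¹` finite ⟹ `λ¹` injective, for coefficients `M ≅ M^*(χ)`. -/
theorem lMidMono_of_iso (𝒱 : LevelSys Γ) (χ : Γ →* kˣ) (Tv : LTrace 𝒱 χ) (M : Rep.{u} k Γ)
    (h : LThetaComm Tv M) (e : M ≅ M.dualTwist χ)
    (hepi : Epi (HomologicalComplex.homologyMap (lthetaHom Tv M h) 1))
    (hfin : Module.Finite k (lvlH 𝒱 M 1)) :
    Mono (HomologicalComplex.homologyMap (lthetaHom Tv M h) 1) := by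
  have hθ : Function.Surjective (HomologicalComplex.homologyMap (lthetaHom Tv M h) 1).hom :=
    (ModuleCat.epi_iff_surjective _).mp hepi
  rw [ModuleCat.mono_iff_injective]
  have hWfin : Module.Finite k ((dualCx2 (lvlComplex 𝒱 (M.dualTwist χ))).homology 1) :=
    Module.Finite.of_surjective _ hθ
  obtain ⟨Φ, hΦ⟩ := exists_dual2H1_injective (lvlComplex 𝒱 (M.dualTwist χ))
  have h1 := LinearMap.finrank_le_finrank_of_injective hΦ
  rw [Subspace.dual_finrank_eq, ← (lvlHIso 𝒱 e 1).toLinearEquiv.finrank_eq] at h1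
  have h2 : finrank k ((dualCx2 (lvlComplex 𝒱 (M.dualTwist χ))).homology 1)
      ≤ finrank k (lvlH 𝒱 M 1) := LinearMap.finrank_le_finrank_of_surjective hθ
  exact (LinearMap.injective_iff_surjective_of_finrank_eq_finrank (le_antisymm h1 h2)).mpr hθ

/-- `λ²` onto + `dim H² ≤ 1` ⟹ `λ²` injective, if `H⁰(Γ, M^*(χ)) ≠ 0`. -/
theorem lTopMono_of_ne_zero (𝒱 : LevelSys Γ) (χ : Γ →* kˣ) (Tv : LTrace 𝒱 χ) (M : Rep.{u} k Γ)
    (h : LThetaComm Tv M) (hne : ∃ z : lvlH 𝒱 (M.dualTwist χ) 0, z ≠ 0)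
    (hepi : Epi (HomologicalComplex.homologyMap (lthetaHom Tv M h) 2))
    (hfin : Module.Finite k (lvlH 𝒱 M 2)) (hdim : finrank k (lvlH 𝒱 M 2) ≤ 1) :
    Mono (HomologicalComplex.homologyMap (lthetaHom Tv M h) 2) := by
  have hθ : Function.Surjective (HomologicalComplex.homologyMap (lthetaHom Tv M h) 2).hom :=
    (ModuleCat.epi_iff_surjective _).mp hepi
  rw [ModuleCat.mono_iff_injective]
  have hWfin : Module.Finite k ((dualCx2 (lvlComplex 𝒱 (M.dualTwist χ))).homology 2) :=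
    Module.Finite.of_surjective _ hθ
  -- the target is nonzero
  obtain ⟨Φ, hΦ⟩ := exists_dual2H0_injective (lvlComplex 𝒱 (M.dualTwist χ))
  obtain ⟨z, hz⟩ := hne
  obtain ⟨φ, hφ⟩ : ∃ φ : Module.Dual k (lvlH 𝒱 (M.dualTwist χ) 0), φ z ≠ 0 := by
    by_contra hcon
    push Not at hcon
    exact hz ((Module.forall_dual_apply_eq_zero_iff k z).mp hcon)
  have hw : Φ φ ≠ 0 := by
    intro h0
    have : φ = 0 := hΦ (h0.trans (map_zero Φ).symm)
    exact hφ (by rw [this, LinearMap.zero_apply])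
  have hWpos : 0 < finrank k ((dualCx2 (lvlComplex 𝒱 (M.dualTwist χ))).homology 2) :=
    Module.finrank_pos_iff_exists_ne_zero.mpr ⟨Φ φ, hw⟩
  have h2 : finrank k ((dualCx2 (lvlComplex 𝒱 (M.dualTwist χ))).homology 2)
      ≤ finrank k (lvlH 𝒱 M 2) := LinearMap.finrank_le_finrank_of_surjective hθ
  have heq : finrank k (lvlH 𝒱 M 2)
      = finrank k ((dualCx2 (lvlComplex 𝒱 (M.dualTwist χ))).homology 2) := by omega
  exact (LinearMap.injective_iff_surjective_of_finrank_eq_finrank heq).mpr hθ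

end main

/-- **[L-M1] SD-LM.** `λ¹` is injective on permutation modules. -/
theorem lMidMono : LMidMonoStatement := by
  intro p _ Γ _ 𝒱 χ Tv hcv V hV hepi hfin
  obtain ⟨⟨N, hN, hNV⟩, hχ⟩ := hV
  have hNfin : N.FiniteIndex := 𝒱.finiteIndex N hN
  have hVfin : V.FiniteIndex := Subgroup.finiteIndex_of_le hNV
  exact lMidMono_of_iso 𝒱 χ Tv _ (hcv _) (permSelfDual χ V hχ) hepi hfin

/-- **[L-M2] SD-LM.** `λ²` is injective on permutation modules. -/
theorem lTopMono : LTopMonoStatement := by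
  intro p _ Γ _ 𝒱 χ Tv hcv V hV hepi hfin hdim
  obtain ⟨⟨N, hN, hNV⟩, hχ⟩ := hV
  have hNfin : N.FiniteIndex := 𝒱.finiteIndex N hN
  have hVfin : V.FiniteIndex := Subgroup.finiteIndex_of_le hNV
  refine lTopMono_of_ne_zero 𝒱 χ Tv _ (hcv _) ?_ hepi hfin hdim
  obtain ⟨z, hz⟩ := lvlH0_perm_ne_zero (k := ZMod p) V 𝒱
  refine ⟨(lvlHIso 𝒱 (permSelfDual χ V hχ) 0).toLinearEquiv z, ?_⟩
  intro h0
  exact hz ((lvlHIso 𝒱 (permSelfDual χ V hχ) 0).toLinearEquiv.map_eq_zero_iff.mp h0)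

end Fermat.Agent.H46.Cft
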